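import Mathlib
import Fermat.Agent.Lib.InertiaField.Unram
import Fermat.Agent.S05.Inertia

/-!
# S44, block ES: tame subgroups of the inertia group  (owner: helper12)

`A` is a valuation subring of `ℚ̄` over `p`.  A subgroup `J` of the inertia group of `A` is *tame*
if the value group of its fixed field has index prime to `p` over `v(p)^ℤ`, in the pointwise form:
every nonzero `w` fixed by `J` satisfies `v(w)^m = v(p)^i` for some `m` prime to `p`.

* `tame_inertia`      : the inertia group is tame (the inertia field is unramified);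
* `Tame.stabilizer`   : the stabiliser in `J` of a point whose `J`-orbit has less than `p` elements
                        is tame (product over the orbit of `w`);
* `Tame.dvd_of_val_eq`: if `v(α)^p = v(p)^j`, `p ∤ j`, and `v(u) = v(α)^n` with `u` fixed by `J`
                        then `p ∣ n`;
* `Tame.exists_moving`: such an `α` is moved by some element of `J`.
-/

set_option autoImplicit false

namespace Fermat.Agent.S44.ES

/-- `ℚ̄` -/
local notation "Qb" => AlgebraicClosure ℚ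

/-- `G_ℚ` -/
local notation "GQ" => (AlgebraicClosure ℚ ≃ₐ[ℚ] AlgebraicClosure ℚ)

/-- A subgroup of the inertia group whose fixed field has ramification index prime to `p`. -/
def Tame (A : ValuationSubring Qb) (p : ℕ) (J : Subgroup GQ) : Prop :=
  J ≤ A.inertiaSubgroupIn ℚ ∧ ∀ w : Qb, w ≠ 0 → (∀ σ ∈ J, σ w = w) →
    ∃ m : ℕ, ¬ p ∣ m ∧ ∃ i : ℤ, A.valuation w ^ m = A.valuation (p : Qb) ^ i

theorem val_apply_eq (A : ValuationSubring Qb) {σ : GQ} (hσ : σ ∈ A.inertiaSubgroupIn ℚ)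
    (x : Qb) : A.valuation (σ x) = A.valuation x := by
  have : Algebra.IsAlgebraic ℚ Qb := AlgebraicClosure.isAlgebraic ℚ
  exact S05.inertia_valuation_eq A hσ x

theorem tame_inertia (A : ValuationSubring Qb) {p : ℕ} (hp : p.Prime) (hA : A.LiesOverPrime p) :
    Tame A p (A.inertiaSubgroupIn ℚ) := by
  refine ⟨le_rfl, fun w hw hfix => ⟨1, ?_, ?_⟩⟩
  · exact fun h => hp.one_lt.ne' (Nat.dvd_one.mp h)
  · obtain ⟨k, u, -, hu, hu', hwu⟩ := Lib.InertiaField.exists_zpow_mul_unit A p hp hA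
      ((Lib.InertiaField.mem_K0_iff A w).mpr hfix) hw
    refine ⟨k, ?_⟩
    have h1 : A.valuation u ≤ 1 := (A.valuation_le_one_iff u).mpr hu
    have h2 : A.valuation u⁻¹ ≤ 1 := (A.valuation_le_one_iff _).mpr hu'
    have hu0 : u ≠ 0 := by
      rintro rfl
      rw [mul_zero] at hwu
      exact hw hwu
    have hv0 : A.valuation u ≠ 0 := (map_ne_zero _).mpr hu0
    have h3 : A.valuation u = 1 := by
      refine le_antisymm h1 ?_
      rw [map_inv₀] at h2
      exact (inv_le_one₀ (zero_lt_iff.mpr hv0)).mp h2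
    rw [pow_one, hwu, map_mul, map_zpow₀, h3, mul_one]

section

variable {A : ValuationSubring Qb} {p : ℕ} {J : Subgroup GQ}

theorem Tame.stabilizer {X : Type*} [MulAction GQ X] (hp : p.Prime) (hJ : Tame A p J) (x₀ : X)
    (S : Finset X) (hS : S.card < p) (horb : ∀ σ ∈ J, σ • x₀ ∈ S) :
    Tame A p (J ⊓ MulAction.stabilizer GQ x₀) := by
  classical
  refine ⟨inf_le_left.trans hJ.1, fun w hw hfix => ?_⟩
  -- a section of the orbit map
  let g : X → Qb := fun y => if h : ∃ σ ∈ J, σ • x₀ = y then (Classical.choose h) w else 0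
  have hg : ∀ σ ∈ J, g (σ • x₀) = σ w := by
    intro σ hσ
    have h : ∃ ρ ∈ J, ρ • x₀ = σ • x₀ := ⟨σ, hσ, rfl⟩
    have hgdef : g (σ • x₀) = (Classical.choose h) w := dif_pos h
    obtain ⟨hρJ, hρ⟩ := Classical.choose_spec h
    set ρ := Classical.choose h
    have hmem : σ⁻¹ * ρ ∈ J ⊓ MulAction.stabilizer GQ x₀ := by
      refine Subgroup.mem_inf.mpr ⟨J.mul_mem (J.inv_mem hσ) hρJ, ?_⟩
      rw [MulAction.mem_stabilizer_iff, mul_smul, hρ, inv_smul_smul]
    have h2 := hfix _ hmem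
    rw [AlgEquiv.mul_apply] at h2
    rw [hgdef]
    have h3 := congrArg σ h2
    rwa [← AlgEquiv.mul_apply, mul_inv_cancel, AlgEquiv.one_apply] at h3
  let O : Finset Qb := (S.filter fun y => ∃ σ ∈ J, σ • x₀ = y).image g
  have hO : ∀ y : Qb, y ∈ O ↔ ∃ σ ∈ J, σ w = y := by
    intro y
    simp only [O, Finset.mem_image, Finset.mem_filter]
    constructor
    · rintro ⟨x, ⟨-, σ, hσ, rfl⟩, rfl⟩
      exact ⟨σ, hσ, (hg σ hσ).symm⟩
    · rintro ⟨σ, hσ, rfl⟩
      exact ⟨σ • x₀, ⟨horb σ hσ, σ, hσ, rfl⟩, hg σ hσ⟩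
  have hcard : O.card < p :=
    lt_of_le_of_lt (Finset.card_image_le.trans (Finset.card_filter_le _ _)) hS
  have hcard0 : 0 < O.card := Finset.card_pos.mpr ⟨w, (hO w).mpr ⟨1, J.one_mem, rfl⟩⟩
  -- the norm
  set N : Qb := ∏ y ∈ O, y with hN
  have hN0 : N ≠ 0 := by
    rw [hN, Finset.prod_ne_zero_iff]
    intro y hy
    obtain ⟨σ, -, rfl⟩ := (hO y).mp hy
    exact (map_ne_zero_iff σ σ.injective).mpr hw
  have hNfix : ∀ ρ ∈ J, ρ N = N := by
    intro ρ hρ
    have himg : O.image ρ = O := by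
      ext y
      rw [Finset.mem_image]
      constructor
      · rintro ⟨x, hx, rfl⟩
        obtain ⟨σ, hσ, rfl⟩ := (hO x).mp hx
        exact (hO _).mpr ⟨ρ * σ, J.mul_mem hρ hσ, rfl⟩
      · intro hy
        obtain ⟨σ, hσ, rfl⟩ := (hO y).mp hy
        refine ⟨(ρ⁻¹ * σ) w, (hO _).mpr ⟨ρ⁻¹ * σ, J.mul_mem (J.inv_mem hρ) hσ, rfl⟩, ?_⟩
        rw [← AlgEquiv.mul_apply, mul_inv_cancel_left]
    have h1 : ∏ y ∈ O.image ρ, y = ∏ y ∈ O, ρ y :=
      Finset.prod_image (fun a _ b _ hab => ρ.injective hab)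
    rw [hN, map_prod, ← h1, himg]
  have hNval : A.valuation N = A.valuation w ^ O.card := by
    rw [hN, map_prod, Finset.prod_congr rfl (g := fun _ => A.valuation w), Finset.prod_const]
    intro y hy
    obtain ⟨σ, hσ, rfl⟩ := (hO y).mp hy
    exact val_apply_eq A (hJ.1 hσ) w
  obtain ⟨m, hm, i, hi⟩ := hJ.2 N hN0 hNfix
  refine ⟨O.card * m, ?_, i, ?_⟩
  · intro hdvd
    rcases (Nat.Prime.dvd_mul hp).mp hdvd with h | h
    · exact Nat.not_dvd_of_pos_of_lt hcard0 hcard h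
    · exact hm h
  · rw [pow_mul, ← hNval, hi]

theorem zpow_val_injective (hA : A.LiesOverPrime p) (hp0 : p ≠ 0) {a b : ℤ}
    (h : A.valuation (p : Qb) ^ a = A.valuation (p : Qb) ^ b) : a = b := by
  have h1 : A.valuation (p : Qb) < 1 := A.mem_nonunits_iff.mp hA
  have h0 : 0 < A.valuation (p : Qb) :=
    zero_lt_iff.mpr ((map_ne_zero _).mpr (Nat.cast_ne_zero.mpr hp0))
  exact zpow_right_injective₀ h0 h1.ne h

/-- If `v(α)^p = v(p)^j` with `p ∤ j` and `u ≠ 0` is fixed by the tame group `J`, then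
`v(u) = v(α)^n` forces `p ∣ n`. -/
theorem Tame.dvd_of_val_eq (hp : p.Prime) (hA : A.LiesOverPrime p) (hJ : Tame A p J)
    {α : Qb} {j : ℤ} (hαj : A.valuation α ^ p = A.valuation (p : Qb) ^ j) (hj : ¬ (p : ℤ) ∣ j)
    {u : Qb} (hu : u ≠ 0) (hfix : ∀ σ ∈ J, σ u = u) {n : ℤ}
    (hn : A.valuation u = A.valuation α ^ n) : (p : ℤ) ∣ n := by
  obtain ⟨m, hm, i, hi⟩ := hJ.2 u hu hfix
  have h1 : A.valuation (p : Qb) ^ (j * n * m) = A.valuation (p : Qb) ^ (i * p) := by
    rw [zpow_mul, zpow_mul, ← hαj, zpow_mul _ i, ← hi, hn]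
    simp only [← zpow_mul, ← zpow_natCast]
    congr 1
    ring
  have h2 := zpow_val_injective hA hp.ne_zero h1
  have hpp : Prime (p : ℤ) := Nat.prime_iff_prime_int.mp hp
  have h3 : (p : ℤ) ∣ j * n * m := ⟨i, by rw [h2]; ring⟩
  rcases hpp.dvd_or_dvd h3 with h | h
  · rcases hpp.dvd_or_dvd h with h | h
    · exact absurd h hj
    · exact h
  · exact absurd (Int.natCast_dvd_natCast.mp h) hm

theorem Tame.exists_moving (hp : p.Prime) (hA : A.LiesOverPrime p) (hJ : Tame A p J)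
    {α : Qb} {j : ℤ} (hαj : A.valuation α ^ p = A.valuation (p : Qb) ^ j) (hj : ¬ (p : ℤ) ∣ j) :
    ∃ τ ∈ J, τ α ≠ α := by
  by_contra hcon
  push Not at hcon
  have hα : α ≠ 0 := by
    rintro rfl
    rw [map_zero, zero_pow hp.ne_zero] at hαj
    have h0 : A.valuation (p : Qb) ≠ 0 := (map_ne_zero _).mpr (Nat.cast_ne_zero.mpr hp.ne_zero)
    exact zpow_ne_zero j h0 hαj.symm
  have h := hJ.dvd_of_val_eq hp hA hαj hj hα hcon (n := 1) (by rw [zpow_one])
  exact hp.one_lt.ne' (Nat.dvd_one.mp (Int.natCast_dvd_natCast.mp (by simpa using h)))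

end

end Fermat.Agent.S44.ES
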