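import Mathlib
import Fermat.Agent.S44.ES.Tame

/-!
# S44, block ES: the abstract ramification lemma (TB)  (owner: helper12)

Let `J` be a tame subgroup of the inertia group, `α` with `v(α)^p = v(p)^j`, `p ∤ j`, `ζ ≠ 1` a
`p`-th root of unity fixed by `J` and by `τ`.  Let `z ∈ A` be such that `J` acts on the `τ`-orbit of
`z` and on `α` "through the powers of `τ`".  Then `v(τ z - z) < v(ζ - 1)`, in the form
`v(τ z - z)^(p-1) < v(p)`.

Proof: `z = ∑ e_i`, `e_i = p⁻¹ ∑_k ζ^(-ik) τ^k z`; `e_i / α^i` is fixed by `J`, so the `v(e_i)` are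
pairwise distinct, `v(e_i) ≤ v(z) ≤ 1`, `v(e_i) < 1` for `i ≠ 0`, and `τ z - z = ∑ (ζ^i - 1) e_i`.
-/

set_option autoImplicit false

namespace Fermat.Agent.S44.ES

open Finset

/-- `ℚ̄` -/
local notation "Qb" => AlgebraicClosure ℚ

/-- `G_ℚ` -/
local notation "GQ" => (AlgebraicClosure ℚ ≃ₐ[ℚ] AlgebraicClosure ℚ)

/-! ### Cyclotomic valuations -/

theorem isPrimitiveRoot_of_prime {p : ℕ} (hp : p.Prime) {ζ : Qb} (hζp : ζ ^ p = 1) (hζ1 : ζ ≠ 1) :
    IsPrimitiveRoot ζ p := by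
  have : Fact p.Prime := ⟨hp⟩
  have h := IsPrimitiveRoot.orderOf ζ
  rwa [orderOf_eq_prime hζp hζ1] at h

theorem val_eq_one_of_pow_eq_one (A : ValuationSubring Qb) {μ : Qb} {n : ℕ} (hn : n ≠ 0)
    (hμ : μ ^ n = 1) : A.valuation μ = 1 := by
  have h : A.valuation μ ^ n = 1 := by rw [← map_pow, hμ, map_one]
  exact (pow_eq_one_iff_of_nonneg zero_le hn).mp h

/-- `1 - μ` divides `1 - μ ^ i`. -/
theorem val_one_sub_pow_le (A : ValuationSubring Qb) {p : ℕ} (hp : p ≠ 0) {μ : Qb}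
    (hμ : μ ^ p = 1) (i : ℕ) : A.valuation (1 - μ ^ i) ≤ A.valuation (1 - μ) := by
  have h1 : 1 - μ ^ i = (∑ j ∈ range i, μ ^ j) * (1 - μ) := by
    have := geom_sum_mul μ i
    linear_combination this
  have h2 : A.valuation (∑ j ∈ range i, μ ^ j) ≤ 1 := by
    refine A.valuation.map_sum_le fun j _ => ?_
    rw [map_pow, val_eq_one_of_pow_eq_one A hp hμ, one_pow]
  rw [h1, map_mul]
  exact mul_le_of_le_one_left' h2

theorem val_natCast_eq_pow (A : ValuationSubring Qb) {p : ℕ} (hp : p.Prime) {ζ : Qb}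
    (hζ : IsPrimitiveRoot ζ p) : A.valuation (p : Qb) = A.valuation (1 - ζ) ^ (p - 1) := by
  have : Fact p.Prime := ⟨hp⟩
  have : NeZero p := ⟨hp.ne_zero⟩
  have h1 : (p : Qb) = ∏ μ ∈ primitiveRoots p Qb, (1 - μ) := by
    have h2 := congrArg (Polynomial.eval 1) (Polynomial.cyclotomic_eq_prod_X_sub_primitiveRoots hζ)
    rw [Polynomial.eval_one_cyclotomic_prime, Polynomial.eval_prod] at h2
    simpa using h2
  rw [h1, map_prod]
  have h3 : ∀ μ ∈ primitiveRoots p Qb, A.valuation (1 - μ) = A.valuation (1 - ζ) := by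
    intro μ hμ
    have hμ' : IsPrimitiveRoot μ p := (mem_primitiveRoots hp.pos).1 hμ
    obtain ⟨i, -, hi⟩ := hζ.eq_pow_of_pow_eq_one hμ'.pow_eq_one
    obtain ⟨i', -, hi'⟩ := hμ'.eq_pow_of_pow_eq_one hζ.pow_eq_one
    refine le_antisymm ?_ ?_
    · rw [← hi]
      exact val_one_sub_pow_le A hp.ne_zero hζ.pow_eq_one i
    · rw [← hi']
      exact val_one_sub_pow_le A hp.ne_zero hμ'.pow_eq_one i'
  rw [prod_congr rfl h3, prod_const, hζ.card_primitiveRoots, Nat.totient_prime hp]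

/-! ### The isotypic components -/

/-- shifting a periodic summand -/
theorem sum_range_shift {p : ℕ} (φ : ℕ → Qb) (hφ : ∀ n, φ (n + p) = φ n) (m : ℕ) :
    ∑ k ∈ range p, φ (k + m) = ∑ k ∈ range p, φ k := by
  induction m with
  | zero => simp
  | succ m ih =>
    rw [← ih]
    have h1 := sum_range_succ (fun k => φ (k + m)) p
    have h2 := sum_range_succ' (fun k => φ (k + m)) p
    have h3 : φ (p + m) = φ (0 + m) := by rw [add_comm p m, hφ, zero_add]
    have h4 : ∀ k, φ (k + 1 + m) = φ (k + (m + 1)) := fun k => by congr 1; ring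
    simp only [h4] at h2
    rw [h1, h3] at h2
    exact (add_right_cancel h2).symm

/-- the `i`-th isotypic component of the periodic sequence `T` -/
noncomputable def eComp (p : ℕ) (ζ : Qb) (T : ℕ → Qb) (i : ℕ) : Qb :=
  (p : Qb)⁻¹ * ∑ k ∈ range p, ζ⁻¹ ^ (i * k) * T k

theorem apply_eComp {p : ℕ} (hp : p ≠ 0) {ζ : Qb} (hζp : ζ ^ p = 1) {T : ℕ → Qb}
    (hT : ∀ n, T (n + p) = T n)
    (σ : GQ) (hσζ : σ ζ = ζ) (m : ℕ) (hσT : ∀ n, σ (T n) = T (n + m)) (i : ℕ) :
    σ (eComp p ζ T i) = ζ ^ (i * m) * eComp p ζ T i := by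
  have hζ0 : ζ ≠ 0 := by
    rintro rfl
    rw [zero_pow hp] at hζp
    exact zero_ne_one hζp
  have hper : ∀ n, ζ⁻¹ ^ (i * (n + p)) * T (n + p) = ζ⁻¹ ^ (i * n) * T n := by
    intro n
    rw [hT, mul_add, pow_add, mul_comm i p, pow_mul ζ⁻¹ p i, inv_pow ζ p, hζp, inv_one, one_pow,
      mul_one]
  have hs := sum_range_shift (fun k => ζ⁻¹ ^ (i * k) * T k) hper m
  have h1 : σ (eComp p ζ T i) = (p : Qb)⁻¹ * ∑ k ∈ range p, ζ⁻¹ ^ (i * k) * T (k + m) := by
    simp only [eComp, map_mul, map_inv₀, map_natCast, map_sum, map_pow, hσζ, hσT]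
  rw [h1, eComp, ← hs, mul_left_comm (ζ ^ (i * m)), mul_sum (range p) _ (ζ ^ (i * m))]
  congr 1
  refine sum_congr rfl fun k _ => ?_
  rw [mul_add, pow_add, inv_pow ζ (i * m), ← mul_assoc, ← mul_assoc]
  congr 1
  field_simp

theorem sum_eComp {p : ℕ} (hp : p.Prime) {ζ : Qb} (hζ : IsPrimitiveRoot ζ p) (T : ℕ → Qb) :
    ∑ i ∈ range p, eComp p ζ T i = T 0 := by
  have hp0 : (p : Qb) ≠ 0 := Nat.cast_ne_zero.mpr hp.ne_zero
  simp only [eComp]
  rw [← mul_sum, sum_comm]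
  have h1 : ∀ k ∈ range p, ∑ i ∈ range p, ζ⁻¹ ^ (i * k) * T k
      = (∑ i ∈ range p, (ζ⁻¹ ^ k) ^ i) * T k := by
    intro k _
    rw [sum_mul]
    refine sum_congr rfl fun i _ => ?_
    rw [mul_comm i k, pow_mul]
  rw [sum_congr rfl h1, sum_eq_single 0]
  · simp [hp0]
  · intro k hk hk0
    have hcop : Nat.Coprime k p :=
      Nat.coprime_comm.mp ((Nat.Prime.coprime_iff_not_dvd hp).mpr
        (Nat.not_dvd_of_pos_of_lt (Nat.pos_of_ne_zero hk0) (mem_range.mp hk)))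
    rw [(hζ.inv.pow_of_coprime k hcop).geom_sum_eq_zero hp.one_lt, zero_mul]
  · intro h
    exact absurd (mem_range.mpr hp.pos) h

/-! ### The lemma -/

theorem eq_of_dvd_sub_of_lt {p i i' : ℕ} (hi : i < p) (hi' : i' < p)
    (h : (p : ℤ) ∣ (i : ℤ) - i') : i = i' := by
  have h0 : (i : ℤ) - i' = 0 :=
    Int.eq_zero_of_abs_lt_dvd h (abs_lt.mpr ⟨by omega, by omega⟩)
  omega

/-- **(TB)** -/
theorem TB {A : ValuationSubring Qb} {p : ℕ} {J : Subgroup GQ} (hp : p.Prime)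
    (hA : A.LiesOverPrime p) (hJ : Tame A p J) {α : Qb} {j : ℤ}
    (hαj : A.valuation α ^ p = A.valuation (p : Qb) ^ j) (hj : ¬ (p : ℤ) ∣ j)
    {ζ : Qb} (hζp : ζ ^ p = 1) (hζ1 : ζ ≠ 1) {τ : GQ} (hτζ : τ ζ = ζ) {z : Qb} (hz : z ∈ A)
    (hτz : (τ ^ p) z = z)
    (hσ : ∀ σ ∈ J, σ ζ = ζ ∧ ∃ k : ℕ, σ α = ζ ^ k * α ∧
      ∀ n : ℕ, σ ((τ ^ n) z) = (τ ^ (n + k)) z) :
    A.valuation (τ z - z) ^ (p - 1) < A.valuation (p : Qb) := by
  classical
  have hζ : IsPrimitiveRoot ζ p := isPrimitiveRoot_of_prime hp hζp hζ1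
  have hζ0 : ζ ≠ 0 := hζ.ne_zero hp.ne_zero
  have hα0 : α ≠ 0 := by
    rintro rfl
    rw [map_zero, zero_pow hp.ne_zero] at hαj
    have h0 : A.valuation (p : Qb) ≠ 0 := (map_ne_zero _).mpr (Nat.cast_ne_zero.mpr hp.ne_zero)
    exact zpow_ne_zero j h0 hαj.symm
  have hvα0 : A.valuation α ≠ 0 := (map_ne_zero _).mpr hα0
  set T : ℕ → Qb := fun n => (τ ^ n) z with hTdef
  have hT : ∀ n, T (n + p) = T n := by
    intro n
    simp only [hTdef]
    rw [pow_add, AlgEquiv.mul_apply, hτz]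
  set e : ℕ → Qb := eComp p ζ T with he
  have hsum : ∑ i ∈ range p, e i = z := by
    rw [he, sum_eComp hp hζ]
    simp [hTdef]
  have hτe : ∀ i, τ (e i) = ζ ^ i * e i := by
    intro i
    have h := apply_eComp hp.ne_zero hζp hT τ hτζ 1
      (fun n => by simp only [hTdef]; rw [pow_succ', AlgEquiv.mul_apply]) i
    rwa [mul_one] at h
  have hfix : ∀ i, ∀ σ ∈ J, σ (e i / α ^ i) = e i / α ^ i := by
    intro i σ hσJ
    obtain ⟨h1, k, h2, h3⟩ := hσ σ hσJ
    rw [map_div₀, map_pow, h2, he, apply_eComp hp.ne_zero hζp hT σ h1 k h3 i, mul_pow, ← pow_mul,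
      mul_comm k i]
    exact mul_div_mul_left _ _ (pow_ne_zero _ hζ0)
  have hkey : ∀ i i', e i ≠ 0 → e i' ≠ 0 → A.valuation (e i) = A.valuation (e i') →
      (p : ℤ) ∣ (i : ℤ) - i' := by
    intro i i' hi hi' hv
    refine hJ.dvd_of_val_eq hp hA hαj hj (u := (e i' / α ^ i') / (e i / α ^ i)) ?_ ?_ ?_
    · exact div_ne_zero (div_ne_zero hi' (pow_ne_zero _ hα0)) (div_ne_zero hi (pow_ne_zero _ hα0))
    · intro σ hσJ
      rw [map_div₀, hfix i' σ hσJ, hfix i σ hσJ]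
    · rw [map_div₀, map_div₀, map_div₀, map_pow, map_pow, hv, zpow_sub₀ hvα0, zpow_natCast,
        zpow_natCast]
      exact div_div_div_cancel_left' _ _ ((map_ne_zero _).mpr hi')
  have hle : ∀ i ∈ range p, A.valuation (e i) ≤ 1 := by
    obtain ⟨j₀, hj₀, hmax⟩ := exists_max_image (range p) (fun i => A.valuation (e i))
      ⟨0, mem_range.mpr hp.pos⟩
    have hzle : A.valuation z ≤ 1 := (A.valuation_le_one_iff z).mpr hz
    by_cases h0 : e j₀ = 0
    · intro i hi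
      have h := hmax i hi
      simp only [h0, map_zero] at h
      exact h.trans zero_le_one
    · have hlt : ∀ i ∈ range p \ {j₀}, A.valuation (e i) < A.valuation (e j₀) := by
        intro i hi
        rw [mem_sdiff, mem_singleton] at hi
        refine lt_of_le_of_ne (hmax i hi.1) fun heq => hi.2 ?_
        have hi0 : e i ≠ 0 := by
          intro h
          rw [h, map_zero] at heq
          exact h0 ((map_eq_zero _).mp heq.symm)
        exact eq_of_dvd_sub_of_lt (mem_range.mp hi.1) (mem_range.mp hj₀) (hkey i j₀ hi0 h0 heq)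
      have h := A.valuation.map_sum_eq_of_lt hj₀ hlt
      rw [hsum] at h
      intro i hi
      exact (hmax i hi).trans (h ▸ hzle)
  have hlt1 : ∀ i ∈ range p, i ≠ 0 → A.valuation (e i) < 1 := by
    intro i hi hi0
    refine lt_of_le_of_ne (hle i hi) fun h1 => ?_
    have hei : e i ≠ 0 := by
      intro h
      rw [h, map_zero] at h1
      exact zero_ne_one h1
    have h := hJ.dvd_of_val_eq hp hA hαj hj (u := (e i / α ^ i)⁻¹)
      (inv_ne_zero (div_ne_zero hei (pow_ne_zero _ hα0)))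
      (fun σ hσJ => by rw [map_inv₀, hfix i σ hσJ]) (n := i)
      (by rw [map_inv₀, map_div₀, h1, map_pow, one_div, inv_inv, zpow_natCast])
    exact Nat.not_dvd_of_pos_of_lt (Nat.pos_of_ne_zero hi0) (mem_range.mp hi)
      (Int.natCast_dvd_natCast.mp h)
  have hdiff : τ z - z = ∑ i ∈ range p, (ζ ^ i - 1) * e i := by
    conv_lhs => rw [← hsum]
    rw [map_sum, ← sum_sub_distrib]
    refine sum_congr rfl fun i _ => ?_
    rw [hτe]
    ring
  have hl0 : A.valuation (1 - ζ) ≠ 0 := (map_ne_zero _).mpr (sub_ne_zero.mpr hζ1.symm)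
  have hfin : A.valuation (τ z - z) < A.valuation (1 - ζ) := by
    rw [hdiff]
    refine A.valuation.map_sum_lt hl0 fun i hi => ?_
    rcases Nat.eq_zero_or_pos i with rfl | hi0
    · simpa using zero_lt_iff.mpr hl0
    · rw [map_mul, Valuation.map_sub_swap]
      calc A.valuation (1 - ζ ^ i) * A.valuation (e i)
          ≤ A.valuation (1 - ζ) * A.valuation (e i) :=
            mul_le_mul_left (val_one_sub_pow_le A hp.ne_zero hζp i) _
        _ < A.valuation (1 - ζ) * 1 :=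
            mul_lt_mul_of_pos_left (hlt1 i hi hi0.ne') (zero_lt_iff.mpr hl0)
        _ = _ := mul_one _
  rw [val_natCast_eq_pow A hp hζ]
  exact pow_lt_pow_left₀ hfin zero_le (by have := hp.two_le; omega)

end Fermat.Agent.S44.ES
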