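import Mathlib
import Fermat.Agent.S44.ES.TB
import Fermat.Agent.S13.LinAlg

/-!
# S44, block ES: the abstract assembly  (owner: helper12)

`V` a plane over `𝔽_p` with an action of `G_ℚ`, `N ≠ V` a subspace such that the inertia group `I`
at `A` acts trivially on `V / N`.  If every `τ ∈ I` moving a point `x ∉ N` moves some integer `z` of
the field of definition of `x` by at most `v(ζ - 1)` (property (BR)), then `V` is not
"tres ramifiee": there is no `α` in the field cut out by `V` over the inertia field with `α ^ p` in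
the inertia field and `p ∤ v(α ^ p)`.
-/

set_option autoImplicit false

namespace Fermat.Agent.S44.ES

open Finset

/-- `ℚ̄` -/
local notation "Qb" => AlgebraicClosure ℚ

/-- `G_ℚ` -/
local notation "GQ" => (AlgebraicClosure ℚ ≃ₐ[ℚ] AlgebraicClosure ℚ)

theorem not_TR_of_BR {p : ℕ} [Fact p.Prime] {V : Type*} [AddCommGroup V] [Module (ZMod p) V]
    [DistribMulAction GQ V] [Finite V] (hcard : Nat.card V < p ^ 3)
    (A : ValuationSubring Qb) (hA : A.LiesOverPrime p)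
    (N : Submodule (ZMod p) V) (htop : N ≠ ⊤)
    (hN : ∀ σ ∈ A.inertiaSubgroupIn ℚ, ∀ x : V, σ • x - x ∈ N)
    (hBR : ∀ τ ∈ A.inertiaSubgroupIn ℚ, ∀ x : V, x ∉ N → τ • x ≠ x →
      ∃ z ∈ A, (∀ σ ∈ A.inertiaSubgroupIn ℚ, σ • x = x → σ z = z) ∧
        ¬ A.valuation (τ z - z) ^ (p - 1) < A.valuation (p : Qb))
    (α : Qb) (j : ℤ)
    (h1 : ∀ σ ∈ A.inertiaSubgroupIn ℚ, (∀ x : V, σ • x = x) → σ α = α)
    (h2 : ∀ σ ∈ A.inertiaSubgroupIn ℚ, σ (α ^ p) = α ^ p) (h3 : ¬ (p : ℤ) ∣ j)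
    (h4 : A.valuation (α ^ p) = A.valuation (p : Qb) ^ j) : False := by
  classical
  have hp : p.Prime := Fact.out
  set I := A.inertiaSubgroupIn ℚ with hI
  rw [map_pow] at h4
  have hsm : ∀ (σ : GQ) (c : ZMod p) (y : V), σ • (c • y) = c • (σ • y) := fun σ c y =>
    S13.map_zmod_smul (DistribMulAction.toAddMonoidHom V σ) c y
  by_cases hbot : N = ⊥
  · obtain ⟨τ, hτ, hτα⟩ := (tame_inertia A hp hA).exists_moving hp hA h4 h3
    refine hτα (h1 τ hτ fun x => ?_)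
    have := hN τ hτ x
    rw [hbot, Submodule.mem_bot, sub_eq_zero] at this
    exact this
  obtain ⟨e, he0, heN, hNe, hspan⟩ := S13.exists_line_data hcard N hbot htop
  have : NeZero p := ⟨hp.ne_zero⟩
  obtain ⟨ζ₀, hζ₀⟩ : ∃ ζ₀ : Qb, IsPrimitiveRoot ζ₀ p :=
    HasEnoughRootsOfUnity.exists_primitiveRoot Qb p
  -- the tame subgroup
  have hJ1 : Tame A p (I ⊓ MulAction.stabilizer GQ ζ₀) := by
    refine (tame_inertia A hp hA).stabilizer hp ζ₀ ((range (p - 1)).image fun i => ζ₀ ^ (i + 1))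
      ?_ ?_
    · exact lt_of_le_of_lt card_image_le (by rw [card_range]; have := hp.pos; omega)
    · intro σ _
      have h : (σ ζ₀) ^ p = 1 := by rw [← map_pow, hζ₀.pow_eq_one, map_one]
      obtain ⟨i, hi, hi'⟩ := hζ₀.eq_pow_of_pow_eq_one h
      have hi0 : i ≠ 0 := by
        rintro rfl
        rw [pow_zero] at hi'
        have : ζ₀ = 1 := σ.injective (by rw [← hi', map_one])
        exact hζ₀.ne_one hp.one_lt this
      rw [AlgEquiv.smul_def, mem_image]
      exact ⟨i - 1, mem_range.mpr (by omega),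
        by rw [Nat.sub_add_cancel (Nat.pos_of_ne_zero hi0)]; exact hi'⟩
  have hJ : Tame A p ((I ⊓ MulAction.stabilizer GQ ζ₀) ⊓ MulAction.stabilizer GQ e) := by
    refine hJ1.stabilizer hp e (((univ : Finset (ZMod p)).erase 0).image fun c => c • e) ?_ ?_
    · refine lt_of_le_of_lt card_image_le ?_
      rw [card_erase_of_mem (mem_univ _), card_univ, ZMod.card]
      have := hp.pos
      omega
    · intro σ hσ
      have hσI : σ ∈ I := (Subgroup.mem_inf.mp hσ).1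
      have hmem : σ • e ∈ N := by
        have := N.add_mem (hN σ hσI e) heN
        rwa [sub_add_cancel] at this
      obtain ⟨c, hc⟩ := hNe _ hmem
      rw [mem_image]
      refine ⟨c, mem_erase.mpr ⟨?_, mem_univ _⟩, hc.symm⟩
      rintro rfl
      rw [zero_smul] at hc
      exact he0 ((smul_eq_zero_iff_eq σ).mp hc)
  set J := (I ⊓ MulAction.stabilizer GQ ζ₀) ⊓ MulAction.stabilizer GQ e with hJdef
  have hJmem : ∀ σ ∈ J, σ ∈ I ∧ σ ζ₀ = ζ₀ ∧ σ • e = e := by
    intro σ hσ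
    obtain ⟨h, h'⟩ := Subgroup.mem_inf.mp hσ
    obtain ⟨h'', h'''⟩ := Subgroup.mem_inf.mp h
    exact ⟨h'', h''', h'⟩
  obtain ⟨τ, hτJ, hτα⟩ := hJ.exists_moving hp hA h4 h3
  obtain ⟨hτI, hτζ₀, hτe⟩ := hJmem τ hτJ
  -- a point moved by `τ`
  obtain ⟨x, hx⟩ : ∃ x : V, τ • x ≠ x := by
    by_contra hcon
    push Not at hcon
    exact hτα (h1 τ hτI hcon)
  have hxN : x ∉ N := by
    intro hxN
    obtain ⟨c, rfl⟩ := hNe x hxN
    exact hx (by rw [hsm, hτe])
  obtain ⟨z, hzA, hzfix, hznot⟩ := hBR τ hτI x hxN hx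
  obtain ⟨b, hb⟩ := hNe _ (hN τ hτI x)
  have hτx : τ • x = x + b • e := by rw [← hb]; abel
  have hb0 : b ≠ 0 := by
    rintro rfl
    rw [zero_smul, add_zero] at hτx
    exact hx hτx
  have hα0 : α ≠ 0 := by
    rintro rfl
    exact hτα (map_zero τ)
  -- powers of `τ`
  have hτn : ∀ n : ℕ, (τ ^ n) • x = x + ((n : ZMod p) * b) • e := by
    intro n
    induction n with
    | zero => simp
    | succ n ih =>
      rw [pow_succ', mul_smul, ih, smul_add, hsm, hτe, hτx, add_assoc, ← add_smul]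
      congr 2
      push_cast
      ring
  have hτne : ∀ n : ℕ, (τ ^ n) • e = e := by
    intro n
    induction n with
    | zero => simp
    | succ n ih => rw [pow_succ', mul_smul, ih, hτe]
  -- comparison principles
  have hcmpz : ∀ g₁ ∈ I, ∀ g₂ ∈ I, g₁ • x = g₂ • x → g₁ z = g₂ z := by
    intro g₁ hg₁ g₂ hg₂ h
    have h5 := hzfix (g₂⁻¹ * g₁) (I.mul_mem (I.inv_mem hg₂) hg₁)
      (by rw [mul_smul, h, inv_smul_smul])
    have h6 := congrArg g₂ h5
    rwa [← AlgEquiv.mul_apply, mul_inv_cancel_left] at h6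
  have hcmpα : ∀ g₁ ∈ I, ∀ g₂ ∈ I, g₁ • x = g₂ • x → g₁ • e = g₂ • e → g₁ α = g₂ α := by
    intro g₁ hg₁ g₂ hg₂ h h'
    have h5 := h1 (g₂⁻¹ * g₁) (I.mul_mem (I.inv_mem hg₂) hg₁) (by
      intro y
      obtain ⟨a, c, rfl⟩ := hspan x hxN y
      rw [smul_add, hsm, hsm, mul_smul, mul_smul, h, h', inv_smul_smul, inv_smul_smul])
    have h6 := congrArg g₂ h5
    rwa [← AlgEquiv.mul_apply, mul_inv_cancel_left] at h6
  -- the root of unity
  set ζ : Qb := τ α / α with hζdef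
  have hζα : τ α = ζ * α := by rw [hζdef]; field_simp
  have hζp : ζ ^ p = 1 := by
    rw [hζdef, div_pow, ← map_pow, h2 τ hτI, div_self (pow_ne_zero _ hα0)]
  have hζ1 : ζ ≠ 1 := by
    intro h
    rw [h, one_mul] at hζα
    exact hτα hζα
  obtain ⟨i₀, -, hi₀⟩ := hζ₀.eq_pow_of_pow_eq_one hζp
  have hfixζ : ∀ σ : GQ, σ ζ₀ = ζ₀ → σ ζ = ζ := by
    intro σ h
    rw [← hi₀, map_pow, h]
  have hτζ : τ ζ = ζ := hfixζ τ hτζ₀
  have hτnα : ∀ n : ℕ, (τ ^ n) α = ζ ^ n * α := by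
    intro n
    induction n with
    | zero => simp
    | succ n ih =>
      rw [pow_succ', AlgEquiv.mul_apply, ih, map_mul, map_pow, hτζ, hζα]
      ring
  have hτpz : (τ ^ p) z = z := by
    refine hzfix _ (I.pow_mem hτI p) ?_
    rw [hτn, ZMod.natCast_self, zero_mul, zero_smul, add_zero]
  refine hznot (TB hp hA hJ h4 h3 hζp hζ1 hτζ hzA hτpz ?_)
  intro σ hσJ
  obtain ⟨hσI, hσζ₀, hσe⟩ := hJmem σ hσJ
  refine ⟨hfixζ σ hσζ₀, ?_⟩
  obtain ⟨c, hc⟩ := hNe _ (hN σ hσI x)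
  have hσx : σ • x = x + c • e := by rw [← hc]; abel
  have hk : (((c / b).val : ℕ) : ZMod p) * b = c := by
    rw [ZMod.natCast_val, ZMod.cast_id', id, div_mul_cancel₀ _ hb0]
  refine ⟨(c / b).val, ?_, fun n => ?_⟩
  · rw [← hτnα]
    refine hcmpα σ hσI _ (I.pow_mem hτI _) ?_ ?_
    · rw [hτn, hk, hσx]
    · rw [hτne, hσe]
  · have h5 := hcmpz (σ * τ ^ n) (I.mul_mem hσI (I.pow_mem hτI n)) (τ ^ (n + (c / b).val))
      (I.pow_mem hτI _) (by
        rw [mul_smul, hτn, hτn, smul_add, hsm, hσe, hσx, add_assoc, ← add_smul]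
        congr 2
        push_cast
        rw [add_mul, hk]
        ring)
    rwa [AlgEquiv.mul_apply] at h5

end Fermat.Agent.S44.ES
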