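import Mathlib

/-!
# S44, block ES: linear algebra for the assembly (owner: helper51)

`V` is a finite `𝔽_p`-vector space with fewer than `p ^ 3` elements, `W` an additive subgroup,
`x ∉ W`, `l₀ ∈ W` nonzero.  Then `V` is spanned by `l₀` and `x`, `W` consists of the multiples
of `l₀`, and an additive endomorphism fixing `l₀` and `x` is the identity.
-/

set_option autoImplicit false

namespace Fermat.Agent.S44.ES

variable {p : ℕ} [Fact p.Prime] {V : Type*} [AddCommGroup V] [Module (ZMod p) V]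

theorem Lin.zmod_smul_eq_nsmul (a : ZMod p) (v : V) : a • v = a.val • v := by
  conv_lhs => rw [← ZMod.natCast_zmod_val a]
  rw [Nat.cast_smul_eq_nsmul]

theorem Lin.smul_mem (W : AddSubgroup V) (a : ZMod p) {v : V} (hv : v ∈ W) : a • v ∈ W := by
  rw [Lin.zmod_smul_eq_nsmul]
  exact W.nsmul_mem hv _

/-- `l₀` and `x` span `V`. -/
theorem Lin.exists_eq_add [Finite V] (hcard : Nat.card V < p ^ 3) (W : AddSubgroup V) {x l₀ : V}
    (hx : x ∉ W) (hl : l₀ ∈ W) (hl0 : l₀ ≠ 0) (v : V) :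
    ∃ a b : ℕ, v = a • l₀ + b • x := by
  have hp : 1 < p := (Fact.out : p.Prime).one_lt
  have : Module.Finite (ZMod p) V := Module.Finite.of_finite
  have hd : Module.finrank (ZMod p) V < 3 := by
    rw [Module.natCard_eq_pow_finrank (K := ZMod p) (V := V), Nat.card_zmod] at hcard
    exact (Nat.pow_lt_pow_iff_right hp).mp hcard
  have hli : LinearIndependent (ZMod p) ![l₀, x] := by
    rw [LinearIndependent.pair_iff]
    intro s t hst
    have ht : t = 0 := by
      by_contra ht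
      apply hx
      have h1 : t • x = -(s • l₀) := by
        rw [eq_neg_iff_add_eq_zero, add_comm]; exact hst
      have h2 : x = t⁻¹ • (t • x) := by rw [smul_smul, inv_mul_cancel₀ ht, one_smul]
      rw [h2, h1]
      exact Lin.smul_mem W _ (W.neg_mem (Lin.smul_mem W _ hl))
    refine ⟨?_, ht⟩
    rw [ht, zero_smul, add_zero] at hst
    exact (smul_eq_zero.mp hst).resolve_right hl0
  have hspan : Submodule.span (ZMod p) (Set.range ![l₀, x]) = ⊤ := by
    apply Submodule.eq_top_of_finrank_eq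
    have h1 := finrank_span_eq_card hli
    have h2 := Submodule.finrank_le (Submodule.span (ZMod p) (Set.range ![l₀, x]))
    rw [Fintype.card_fin] at h1
    omega
  have hv : v ∈ Submodule.span (ZMod p) (Set.range ![l₀, x]) := by rw [hspan]; trivial
  rw [Matrix.range_cons, Matrix.range_cons, Matrix.range_empty, Set.union_empty,
    Set.singleton_union, Submodule.mem_span_pair] at hv
  obtain ⟨a, b, hab⟩ := hv
  exact ⟨a.val, b.val, by rw [← hab, Lin.zmod_smul_eq_nsmul, Lin.zmod_smul_eq_nsmul]⟩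

/-- `p` kills `V`. -/
theorem Lin.nsmul_p (v : V) : p • v = 0 := by
  rw [← Nat.cast_smul_eq_nsmul (ZMod p), ZMod.natCast_self, zero_smul]

/-- `W` consists of the multiples of `l₀`. -/
theorem Lin.exists_eq_nsmul [Finite V] (hcard : Nat.card V < p ^ 3) (W : AddSubgroup V) {x l₀ : V}
    (hx : x ∉ W) (hl : l₀ ∈ W) (hl0 : l₀ ≠ 0) {w : V} (hw : w ∈ W) :
    ∃ a : ℕ, w = a • l₀ := by
  obtain ⟨a, b, hab⟩ := Lin.exists_eq_add hcard W hx hl hl0 w
  refine ⟨a, ?_⟩
  have hb : ((b : ℕ) : ZMod p) = 0 := by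
    by_contra hb
    apply hx
    have h1 : ((b : ℕ) : ZMod p) • x = w - a • l₀ := by
      rw [Nat.cast_smul_eq_nsmul, hab]; abel
    have h2 : x = ((b : ℕ) : ZMod p)⁻¹ • (((b : ℕ) : ZMod p) • x) := by
      rw [smul_smul, inv_mul_cancel₀ hb, one_smul]
    rw [h2, h1]
    exact Lin.smul_mem W _ (W.sub_mem hw (W.nsmul_mem hl _))
  have h3 : b • x = 0 := by
    rw [← Nat.cast_smul_eq_nsmul (ZMod p), hb, zero_smul]
  rw [hab, h3, add_zero]

/-- An additive endomorphism fixing `l₀` and `x` is the identity. -/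
theorem Lin.eq_self_of_fix [Finite V] (hcard : Nat.card V < p ^ 3) (W : AddSubgroup V) {x l₀ : V}
    (hx : x ∉ W) (hl : l₀ ∈ W) (hl0 : l₀ ≠ 0) (f : V →+ V) (hfx : f x = x) (hfl : f l₀ = l₀)
    (v : V) : f v = v := by
  obtain ⟨a, b, rfl⟩ := Lin.exists_eq_add hcard W hx hl hl0 v
  rw [map_add, map_nsmul, map_nsmul, hfx, hfl]

/-- If `b • l₀ ≠ 0` then every multiple of `l₀` is a multiple of `b • l₀`. -/
theorem Lin.exists_mul_nsmul (p : ℕ) [Fact p.Prime] {V : Type*} [AddCommGroup V]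
    [Module (ZMod p) V] {l₀ : V} {b : ℕ} (hb : b • l₀ ≠ 0) (a : ℕ) :
    ∃ k : ℕ, a • l₀ = (k * b) • l₀ := by
  have hb' : ((b : ℕ) : ZMod p) ≠ 0 := by
    intro h
    apply hb
    rw [← Nat.cast_smul_eq_nsmul (ZMod p), h, zero_smul]
  refine ⟨(((a : ℕ) : ZMod p) * ((b : ℕ) : ZMod p)⁻¹).val, ?_⟩
  rw [← Nat.cast_smul_eq_nsmul (ZMod p), ← Nat.cast_smul_eq_nsmul (ZMod p) (_ * b)]
  congr 1
  rw [Nat.cast_mul, ZMod.natCast_zmod_val, mul_assoc, inv_mul_cancel₀ hb', mul_one]

end Fermat.Agent.S44.ES
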